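import Mathlib

/-!
# LP-NEW : two lemmas of linear algebra
-/

set_option autoImplicit false

namespace Fermat.Agent.LP.New

/-- **Transfer of eigenvectors through Eichler-Shimura.**  `Φ` commutes with `τ` and `τ⁻¹`; on both
sides `τ² - T τ + ℓ = 0`.  Then `Φ` maps `T`-eigenvectors to `T0`-eigenvectors.
PROOF. `hES` at `τi y`: `τ y - T y + ℓ τi y = 0`.  Apply `Φ`: `τ0 Φy - a Φy + ℓ τ0i Φy = 0`.
`hES0` at `τ0i (Φ y)`: `τ0 Φy - T0 Φy + ℓ τ0i Φy = 0`.  Subtract. -/
theorem eigen_transfer {k X X0 : Type*} [Field k] [AddCommGroup X] [Module k X]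
    [AddCommGroup X0] [Module k X0] (τ τi T : Module.End k X) (τ0 τ0i T0 : Module.End k X0)
    (Φ : X →ₗ[k] X0) (ℓ a : k) (h1 : τ * τi = 1) (h10 : τ0 * τ0i = 1)
    (hΦ : ∀ x, Φ (τ x) = τ0 (Φ x)) (hΦi : ∀ x, Φ (τi x) = τ0i (Φ x))
    (hES : τ * τ - T * τ + ℓ • 1 = 0) (hES0 : τ0 * τ0 - T0 * τ0 + ℓ • 1 = 0)
    (y : X) (hy : T y = a • y) : T0 (Φ y) = a • Φ y := by
  have e1 : τ (τi y) = y := by
    have := congrArg (fun f : Module.End k X => f y) h1
    simpa using this
  have e10 : τ0 (τ0i (Φ y)) = Φ y := by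
    have := congrArg (fun f : Module.End k X0 => f (Φ y)) h10
    simpa using this
  have k1 : τ y - T y + ℓ • τi y = 0 := by
    have := congrArg (fun f : Module.End k X => f (τi y)) hES
    simpa [e1] using this
  have k2 : τ0 (Φ y) - T0 (Φ y) + ℓ • τ0i (Φ y) = 0 := by
    have := congrArg (fun f : Module.End k X0 => f (τ0i (Φ y))) hES0
    simpa [e10] using this
  have k3 := congrArg Φ k1
  rw [map_add, map_sub, map_smul, hΦ, hΦi, hy, map_smul, map_zero] at k3
  have k4 : T0 (Φ y) - a • Φ y = 0 := by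
    have := sub_eq_zero.2 (k3.trans k2.symm)
    have e : τ0 (Φ y) - a • Φ y + ℓ • τ0i (Φ y) - (τ0 (Φ y) - T0 (Φ y) + ℓ • τ0i (Φ y)) =
        T0 (Φ y) - a • Φ y := by abel
    rw [e] at this
    exact this
  exact sub_eq_zero.1 k4

/-- **A common eigenvector defines a character.**
PROOF. `{t | ∃ c, ρ t y = c • y}` is a subring containing `s`, so it is everything; `χ t :=` the
(unique, `y ≠ 0`) such `c`. -/
theorem exists_char_of_eigenvector {k X R : Type*} [Field k] [AddCommGroup X] [Module k X]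
    [CommRing R] (ρ : R →+* Module.End k X) (s : Set R) (hs : Subring.closure s = ⊤)
    (y : X) (hy0 : y ≠ 0) (hy : ∀ t ∈ s, ∃ c : k, ρ t y = c • y) :
    ∃ χ : R →+* k, ∀ t, ρ t y = χ t • y := by
  let S : Subring R :=
    { carrier := {t | ∃ c : k, ρ t y = c • y}
      mul_mem' := by
        rintro a b ⟨c, hc⟩ ⟨d, hd⟩
        refine ⟨d * c, ?_⟩
        rw [map_mul, Module.End.mul_apply, hd, map_smul, hc, smul_smul]
      one_mem' := ⟨1, by rw [map_one, Module.End.one_apply, one_smul]⟩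
      add_mem' := by
        rintro a b ⟨c, hc⟩ ⟨d, hd⟩
        refine ⟨c + d, ?_⟩
        rw [map_add, LinearMap.add_apply, hc, hd, add_smul]
      zero_mem' := ⟨0, by rw [map_zero, LinearMap.zero_apply, zero_smul]⟩
      neg_mem' := by
        rintro a ⟨c, hc⟩
        refine ⟨-c, ?_⟩
        rw [map_neg, LinearMap.neg_apply, hc, neg_smul] }
  have hS : ∀ t : R, ∃ c : k, ρ t y = c • y := by
    intro t
    have h1 : Subring.closure s ≤ S := Subring.closure_le.2 hy
    have h2 : t ∈ Subring.closure s := by rw [hs]; exact Subring.mem_top t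
    exact h1 h2
  choose χ hχ using hS
  have hinj := smul_left_injective k hy0
  refine ⟨{ toFun := χ
            map_one' := hinj ?_
            map_mul' := fun a b => hinj ?_
            map_zero' := hinj ?_
            map_add' := fun a b => hinj ?_ }, hχ⟩
  · show χ 1 • y = (1 : k) • y
    rw [← hχ, map_one, Module.End.one_apply, one_smul]
  · show χ (a * b) • y = (χ a * χ b) • y
    rw [← hχ, map_mul, Module.End.mul_apply, hχ b, map_smul, hχ a, smul_smul, mul_comm]
  · show χ 0 • y = (0 : k) • y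
    rw [← hχ, map_zero, LinearMap.zero_apply, zero_smul]
  · show χ (a + b) • y = (χ a + χ b) • y
    rw [← hχ, map_add, LinearMap.add_apply, hχ a, hχ b, add_smul]

end Fermat.Agent.LP.New
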