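import Fermat.Agent.LP.New.Defs
import Fermat.Agent.LP.New.Abs

/-!
# LP-NEW : a common eigenvector of the `T_ℓ` in `M_p(M0)` defines a character of the Hecke algebra
-/

set_option autoImplicit false

noncomputable section

namespace Fermat.Agent.LP.New

open Fermat.Agent.GR Fermat.Agent.GR.H Fermat.Agent.GR.I Fermat.Agent.LP.Gal

/-- PROOF. `R := CuspForm.heckeAlgebra M0 2 S0`, `ρ := (heckeEnd D0 p).comp (Subalgebra.inclusion
(CuspForm.heckeAlgebra_mono (Set.empty_subset S0))).toRingHom`, `s := {t | ∃ ℓ hℓ hℓM hℓS, t = T hℓ hℓM hℓS}`.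
`Subring.closure s = ⊤`: `Algebra.adjoin_induction` on `t.2` (`CuspForm.heckeAlgebra` is
`Algebra.adjoin ℤ (heckeGenerators M0 2 S0)`; there is no generator `U_q` because of `hS0`; integers are in
every subring).  Then `exists_char_of_eigenvector` gives `χ` with `ρ t y = χ t • y` for all `t`;
`χ (T_ℓ) = a ℓ` because `y ≠ 0` (`smul_left_injective`). -/
theorem hasCharAway_of_eigenvector {M0 : ℕ} [NeZero M0] (D0 : KummerData M0) (p : ℕ)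
    [Fact p.Prime] (S0 : Set ℕ) (hS0 : ∀ q : ℕ, q.Prime → q ∣ M0 → q ∈ S0) (a : ℕ → ZMod p)
    (y : KM D0 p) (hy0 : y ≠ 0)
    (hy : ∀ (ℓ : ℕ) (hℓ : ℓ.Prime) (hℓM : ¬ ℓ ∣ M0), ℓ ∉ S0 →
      heckeEnd D0 p (HeckeFull.T hℓ hℓM) y = a ℓ • y) :
    HasCharAway M0 p S0 a := by
  let inc : ↥(CuspForm.heckeAlgebra M0 2 S0) →+* HeckeFull M0 :=
    (Subalgebra.inclusion (CuspForm.heckeAlgebra_mono (Set.empty_subset S0))).toRingHom
  let ρ : ↥(CuspForm.heckeAlgebra M0 2 S0) →+* Module.End (ZMod p) (KM D0 p) :=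
    (heckeEnd D0 p).comp inc
  let s : Set ↥(CuspForm.heckeAlgebra M0 2 S0) :=
    {t | ∃ (ℓ : ℕ) (hℓ : ℓ.Prime) (hℓM : ¬ ℓ ∣ M0) (hℓS : ℓ ∉ S0),
      t = CuspForm.heckeAlgebra.T hℓ hℓM hℓS}
  have hs : Subring.closure s = ⊤ := by
    rw [eq_top_iff]
    rintro ⟨t, ht⟩ -
    have ht' : t ∈ Algebra.adjoin ℤ (CuspForm.heckeGenerators M0 2 S0) := ht
    induction ht' using Algebra.adjoin_induction with
    | mem x hx =>
      rcases hx with ⟨ℓ, hℓ, hℓN, hℓS, rfl⟩ | ⟨q, hqN, hq, hqS, rfl⟩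
      · exact Subring.subset_closure ⟨ℓ, hℓ, hℓN, hℓS, rfl⟩
      · exact absurd (hS0 q hq hqN) hqS
    | algebraMap r =>
      have e : (⟨algebraMap ℤ _ r, ht⟩ : ↥(CuspForm.heckeAlgebra M0 2 S0)) =
          ((r : ℤ) : ↥(CuspForm.heckeAlgebra M0 2 S0)) := by
        apply Subtype.ext
        simp
      rw [e]
      exact intCast_mem _ r
    | add x y hx hy ihx ihy =>
      exact add_mem (ihx hx) (ihy hy)
    | mul x y hx hy ihx ihy =>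
      exact mul_mem (ihx hx) (ihy hy)
  have hinc : ∀ (ℓ : ℕ) (hℓ : ℓ.Prime) (hℓM : ¬ ℓ ∣ M0) (hℓS : ℓ ∉ S0),
      ρ (CuspForm.heckeAlgebra.T hℓ hℓM hℓS) y = a ℓ • y := by
    intro ℓ hℓ hℓM hℓS
    have e : inc (CuspForm.heckeAlgebra.T hℓ hℓM hℓS) = HeckeFull.T hℓ hℓM := Subtype.ext rfl
    show heckeEnd D0 p (inc (CuspForm.heckeAlgebra.T hℓ hℓM hℓS)) y = a ℓ • y
    rw [e]
    exact hy ℓ hℓ hℓM hℓS
  obtain ⟨χ, hχ⟩ := exists_char_of_eigenvector ρ s hs y hy0 (by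
    rintro _ ⟨ℓ, hℓ, hℓM, hℓS, rfl⟩
    exact ⟨a ℓ, hinc ℓ hℓ hℓM hℓS⟩)
  refine ⟨χ, fun ℓ hℓ hℓM hℓS => ?_⟩
  have h1 := hχ (CuspForm.heckeAlgebra.T hℓ hℓM hℓS)
  rw [hinc ℓ hℓ hℓM hℓS] at h1
  exact (smul_left_injective (ZMod p) hy0 h1).symm

end Fermat.Agent.LP.New
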