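import Fermat.Agent.LP.New.Ops
import Fermat.Agent.LP.New.Char
import Fermat.Agent.Lib.Frobenius

/-!
# LP-NEW : the eigenspace `M_p(p M0)[λ]` is stable under `w_p`, and `U_p = - w_p` on it if `λ` does not
occur at level `M0`

No commutation of the Hecke operators `T_ℓ` with `w` or with the norm is needed: both commute with
the Galois action, and the Eichler-Shimura relation `τ² - T_ℓ τ + ℓ = 0` (`τ` a Frobenius element at
`ℓ`) determines `T_ℓ` in terms of `τ`.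
-/

set_option autoImplicit false
set_option linter.unusedSectionVars false

noncomputable section

namespace Fermat.Agent.LP.New

open Fermat.Agent.GR Fermat.Agent.GR.H Fermat.Agent.GR.I Fermat.Agent.LP.Gal ModularCurve

section general

variable {N N' : ℕ} [NeZero N] [NeZero N'] (D : KummerData N) (D' : KummerData N')
  {p : ℕ} [Fact p.Prime]

/-- a Galois equivariant map between the modules of Kummer classes of two levels maps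
`T_ℓ`-eigenvectors to `T_ℓ`-eigenvectors. -/
theorem heckeEnd_T_map (hcrux : CruxAll N) (hcrux' : CruxAll N') (Φ : KM D p →ₗ[ZMod p] KM D' p)
    (hΦ : ∀ σ y, Φ (galHom D p σ y) = galHom D' p σ (Φ y)) {ℓ : ℕ} (hℓ : ℓ.Prime)
    (hℓN : ¬ ℓ ∣ N) (hℓN' : ¬ ℓ ∣ N') (hℓp : ℓ ≠ p) (a : ZMod p) (y : KM D p)
    (hy : heckeEnd D p (HeckeFull.T hℓ hℓN) y = a • y) :
    heckeEnd D' p (HeckeFull.T hℓ hℓN') (Φ y) = a • Φ y := by
  obtain ⟨A, τ, hA, hτ⟩ := Fermat.Agent.Lib.Frobenius.exists_isFrobeniusAt ℓ hℓ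
  exact eigen_transfer (galHom D p τ) (galHom D p τ⁻¹) (heckeEnd D p (HeckeFull.T hℓ hℓN))
    (galHom D' p τ) (galHom D' p τ⁻¹) (heckeEnd D' p (HeckeFull.T hℓ hℓN')) Φ (ℓ : ZMod p) a
    (by rw [← map_mul, mul_inv_cancel, map_one]) (by rw [← map_mul, mul_inv_cancel, map_one])
    (hΦ τ) (hΦ τ⁻¹) (galHom_frob D p hcrux hℓ hℓN hℓp A hA τ hτ)
    (galHom_frob D' p hcrux' hℓ hℓN' hℓp A hA τ hτ) y hy

end general

variable {p M0 : ℕ} [Fact p.Prime] [NeZero M0] [NeZero (p * M0)]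
  (D : KummerData (p * M0)) (D0 : KummerData M0)
  {w : FF Qbar (p * M0) ≃ₐ[Qbar] FF Qbar (p * M0)}

/-- the eigenspaces are stable under `w_p`. -/
theorem wEnd_mem_eig (hcrux : CruxAll (p * M0)) (hpM : ¬ p ∣ M0) (hw : GS.IsWQ Qbar p M0 w)
    (𝓛 : Set ℕ) (a : ℕ → ZMod p) (y : KM D p) (hy : y ∈ eig D p 𝓛 a) :
    wEnd D w y ∈ eig D p 𝓛 a := by
  intro ℓ hℓ hℓN hL
  have hℓp : ℓ ≠ p := fun h => hℓN (h ▸ Dvd.intro _ rfl)
  exact heckeEnd_T_map D D hcrux hcrux (wEnd D w) (wEnd_galHom D hpM hw) hℓ hℓN hℓN hℓp (a ℓ) y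
    (hy ℓ hℓ hℓN hL)

/-- the norm kills the eigenspaces which do not occur at level `M0`. -/
theorem nmHom_eq_zero (hcrux : CruxAll (p * M0)) (hcrux0 : CruxAll M0) (hpM : ¬ p ∣ M0)
    (𝓛 : Set ℕ) (a : ℕ → ZMod p) (S0 : Set ℕ) (hS0 : ∀ q : ℕ, q.Prime → q ∣ p * M0 → q ∈ S0)
    (hL : ∀ ℓ : ℕ, ℓ.Prime → ℓ ∉ S0 → ℓ ∈ 𝓛) (hno : ¬ HasCharAway M0 p S0 a)
    (y : KM D p) (hy : y ∈ eig D p 𝓛 a) : nmHom D D0 hpM y = 0 := by
  by_contra h0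
  refine hno (hasCharAway_of_eigenvector D0 p S0
    (fun q hq hqM => hS0 q hq (Dvd.dvd.mul_left hqM p)) a _ h0 ?_)
  intro ℓ hℓ hℓM hℓS
  have hℓN : ¬ ℓ ∣ p * M0 := fun h => hℓS (hS0 ℓ hℓ h)
  have hℓp : ℓ ≠ p := fun h => hℓN (h ▸ Dvd.intro _ rfl)
  exact heckeEnd_T_map D D0 hcrux hcrux0 (nmHom D D0 hpM) (nmHom_galHom D D0 hpM) hℓ hℓN hℓM hℓp
    (a ℓ) y (hy ℓ hℓ hℓN (hL ℓ hℓ hℓS))

/-- `U_p`. -/
abbrev Up (p M0 : ℕ) [Fact p.Prime] [NeZero (p * M0)] : HeckeFull (p * M0) :=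
  CuspForm.heckeAlgebra.U (Fact.out : p.Prime) (Dvd.intro M0 rfl) (Set.notMem_empty p)

/-- `Nm y = 0` at level `M0` implies `y + U_p (w y) = 0` at level `p M0`. -/
theorem add_U_wEnd_eq_zero (hpM : ¬ p ∣ M0) (hw : GS.IsWQ Qbar p M0 w) (y : KM D p)
    (hy : nmHom D D0 hpM y = 0) : y + heckeEnd D p (Up p M0) (wEnd D w y) = 0 := by
  have hp : p.Prime := Fact.out
  have : NeZero p := ⟨hp.ne_zero⟩
  obtain ⟨ζ, hζ⟩ := KummerData.exists_primitiveRoot p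
  obtain ⟨x, hx, rfl⟩ := exists_ofFun_FF D p y
  rw [nmHom_ofFun, KM.ofFun_eq_zero_iff] at hy
  rw [wEnd_ofFun, heckeEnd_U_ofFun D p hp (Dvd.intro M0 rfl) ζ hζ, ← KM.ofFun_mul,
    KM.ofFun_eq_zero_iff, ← coe_nm hp hpM hw ζ hζ x]
  obtain ⟨z, hz, hz0, h⟩ := hy
  exact ⟨z, FF_le p M0 hz, hz0, h⟩

include D0 in
/-- **LP-NEW (module form).** `U_p = - w_p` on the eigenspaces which do not occur at level `M0`. -/
theorem heckeEnd_U_eq_neg_wEnd (hcrux : CruxAll (p * M0)) (hcrux0 : CruxAll M0) (hpM : ¬ p ∣ M0)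
    (hw : GS.IsWQ Qbar p M0 w) (𝓛 : Set ℕ) (a : ℕ → ZMod p) (S0 : Set ℕ)
    (hS0 : ∀ q : ℕ, q.Prime → q ∣ p * M0 → q ∈ S0)
    (hL : ∀ ℓ : ℕ, ℓ.Prime → ℓ ∉ S0 → ℓ ∈ 𝓛) (hno : ¬ HasCharAway M0 p S0 a)
    (y : KM D p) (hy : y ∈ eig D p 𝓛 a) : heckeEnd D p (Up p M0) y = - wEnd D w y := by
  have h1 := add_U_wEnd_eq_zero D D0 hpM hw (wEnd D w y)
    (nmHom_eq_zero D D0 hcrux hcrux0 hpM 𝓛 a S0 hS0 hL hno _
      (wEnd_mem_eig D hcrux hpM hw 𝓛 a y hy))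
  rw [wEnd_wEnd D hpM hw] at h1
  exact (neg_eq_of_add_eq_zero_right h1).symm

end Fermat.Agent.LP.New
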