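import Fermat.Agent.LP.Gal.KModFun
import Fermat.Agent.LP.Defs
import Fermat.Agent.GS.FW.AL
import Fermat.Prelude.Def_AlgebraicCurve_Correspondence

/-!
# LP-NEW (the eigenspace `M_p(p M0)[λ]` is new at `p`): definitions

`N = p * M0`, `p ∤ M0`.  `nm p M0` is the norm `FF ℚ̄ (p M0) → FF ℚ̄ M0`.
-/

set_option autoImplicit false

noncomputable section

namespace Fermat.Agent.LP.New

open Fermat.Agent.GR Fermat.Agent.GR.H Fermat.Agent.GR.I Fermat.Agent.LP.Gal
open ModularCurve AlgebraicCurve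

theorem FF_le (p M0 : ℕ) : FF Qbar M0 ≤ FF Qbar (p * M0) := GS.FW.FF_mono (Dvd.intro_left p rfl)

/-- the inclusion of the function field of level `M0` in that of level `p * M0`. -/
def incl (p M0 : ℕ) : FF Qbar M0 →ₐ[Qbar] FF Qbar (p * M0) :=
  IntermediateField.inclusion (FF_le p M0)

@[simp] theorem coe_incl (p M0 : ℕ) (x : FF Qbar M0) :
    ((incl p M0 x : FF Qbar (p * M0)) : LaurentSeries Qbar) = x :=
  IntermediateField.coe_inclusion (FF_le p M0) x

/-- the norm from level `p * M0` to level `M0`. -/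
def nm (p M0 : ℕ) : FF Qbar (p * M0) →* FF Qbar M0 :=
  letI := algebraAlong (incl p M0)
  Algebra.norm (FF Qbar M0)

/-- there is a character of the Hecke algebra of level `M0` away from `S0` with values in `𝔽_p` and
`T_ℓ ↦ a ℓ`. -/
def HasCharAway (M0 : ℕ) [NeZero M0] (p : ℕ) (S0 : Set ℕ) (a : ℕ → ZMod p) : Prop :=
  ∃ χ : CuspForm.heckeAlgebra M0 2 S0 →+* ZMod p,
    ∀ (ℓ : ℕ) (hℓ : ℓ.Prime) (hℓM : ¬ ℓ ∣ M0) (hℓS : ℓ ∉ S0),
      χ (CuspForm.heckeAlgebra.T hℓ hℓM hℓS) = a ℓ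

end Fermat.Agent.LP.New
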