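import Fermat.Agent.LP.New.Defs

/-!
# LP-NEW : a multiplicative map of function fields preserving Kummer functions induces a linear map
on the groups of Kummer classes `M_p`
-/

set_option autoImplicit false

noncomputable section

namespace Fermat.Agent.LP.New

open Fermat.Agent.GR Fermat.Agent.GR.H Fermat.Agent.GR.I Fermat.Agent.LP.Gal

variable {N N' : ℕ} [NeZero N] [NeZero N'] (D : KummerData N) (D' : KummerData N')
  (p : ℕ) [Fact p.Prime]

/-- PROOF.  For `y : KM D p` choose `u` with `KM.ofFun D p u hu = y` (`KM.ofFun_surjective`), `u ∈ FF`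
by `hu.2.choose`; put `Φ y := KM.ofFun D' p (F ⟨u, _⟩) _`.  Independence of the choice:
`KM.ofFun_eq_iff` at both levels; `u' = u * z ^ p` gives `F u' = F u * (F z) ^ p` (`map_mul`,
`map_pow`), `F z ≠ 0` by `hF0`.  Additivity: `KM.ofFun_mul` + `map_mul`.  A map between
`ZMod p`-modules which is additive is linear (`AddMonoidHom.toZModLinearMap`). -/
theorem exists_mapKM (F : FF Qbar N →* FF Qbar N') (hF0 : ∀ x, x ≠ 0 → F x ≠ 0)
    (hF : ∀ x : FF Qbar N, IsKummer (N := N) p (x : LaurentSeries Qbar) →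
      IsKummer (N := N') p ((F x : FF Qbar N') : LaurentSeries Qbar)) :
    ∃ Φ : KM D p →ₗ[ZMod p] KM D' p, ∀ (x : FF Qbar N)
      (hx : IsKummer (N := N) p (x : LaurentSeries Qbar)),
      Φ (KM.ofFun D p x hx) = KM.ofFun D' p (F x : FF Qbar N') (hF x hx) := by
  classical
  -- a choice of representative
  have hch : ∀ y : KM D p, ∃ (x : FF Qbar N)
      (hx : IsKummer (N := N) p (x : LaurentSeries Qbar)), KM.ofFun D p x hx = y := by
    intro y
    obtain ⟨u, hu, rfl⟩ := KM.ofFun_surjective D p y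
    exact ⟨⟨u, hu.2.choose⟩, hu, rfl⟩
  choose r hr hry using hch
  -- independence of the representative
  have hind : ∀ (x x' : FF Qbar N) (hx : IsKummer (N := N) p (x : LaurentSeries Qbar))
      (hx' : IsKummer (N := N) p (x' : LaurentSeries Qbar)),
      KM.ofFun D p x hx = KM.ofFun D p x' hx' →
      KM.ofFun D' p (F x : FF Qbar N') (hF x hx) = KM.ofFun D' p (F x' : FF Qbar N') (hF x' hx') := by
    intro x x' hx hx' h
    rw [KM.ofFun_eq_iff] at h ⊢
    obtain ⟨z, hz, hz0, hzz⟩ := h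
    have hz0' : (⟨z, hz⟩ : FF Qbar N) ≠ 0 := by
      intro h0
      exact hz0 (congrArg Subtype.val h0)
    refine ⟨(F ⟨z, hz⟩ : FF Qbar N'), (F ⟨z, hz⟩).2, ?_, ?_⟩
    · intro h0
      exact hF0 _ hz0' (Subtype.ext h0)
    · have hxx : x' = x * (⟨z, hz⟩ : FF Qbar N) ^ p := Subtype.ext hzz
      rw [hxx, map_mul, map_pow]
      rfl
  let f : KM D p → KM D' p := fun y => KM.ofFun D' p (F (r y) : FF Qbar N') (hF _ (hr y))
  have hf : ∀ (x : FF Qbar N) (hx : IsKummer (N := N) p (x : LaurentSeries Qbar)),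
      f (KM.ofFun D p x hx) = KM.ofFun D' p (F x : FF Qbar N') (hF x hx) := by
    intro x hx
    exact hind _ _ _ _ (hry _)
  have hmulK : ∀ (x x' : FF Qbar N) (hx : IsKummer (N := N) p (x : LaurentSeries Qbar))
      (hx' : IsKummer (N := N) p (x' : LaurentSeries Qbar)),
      IsKummer (N := N) p ((x * x' : FF Qbar N) : LaurentSeries Qbar) := by
    intro x x' hx hx'
    exact hx.mul hx'
  have hadd : ∀ y y' : KM D p, f (y + y') = f y + f y' := by
    intro y y'
    have e1 : y + y' = KM.ofFun D p ((r y * r y' : FF Qbar N) : LaurentSeries Qbar)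
        (hmulK _ _ (hr y) (hr y')) := by
      conv_lhs => rw [← hry y, ← hry y']
      exact (KM.ofFun_mul D p _ _ (hr y) (hr y')).symm
    rw [e1, hf]
    have e2 : KM.ofFun D' p ((F (r y * r y') : FF Qbar N') : LaurentSeries Qbar)
        (hF _ (hmulK _ _ (hr y) (hr y'))) =
        KM.ofFun D' p (((F (r y) : FF Qbar N') : LaurentSeries Qbar) *
          ((F (r y') : FF Qbar N') : LaurentSeries Qbar)) ((hF _ (hr y)).mul (hF _ (hr y'))) := by
      apply KM.val_injective D' p
      rw [KM.val_ofFun, KM.val_ofFun]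
      congr 1
      rw [map_mul]
      rfl
    rw [e2, KM.ofFun_mul]
  have hzero : f 0 = 0 := by
    have := hadd 0 0
    rw [add_zero] at this
    exact left_eq_add.mp this
  let g : KM D p →+ KM D' p := ⟨⟨f, hzero⟩, hadd⟩
  exact ⟨g.toZModLinearMap p, fun x hx => hf x hx⟩

/-- the linear map induced by `F`. -/
def mapKM (F : FF Qbar N →* FF Qbar N') (hF0 : ∀ x, x ≠ 0 → F x ≠ 0)
    (hF : ∀ x : FF Qbar N, IsKummer (N := N) p (x : LaurentSeries Qbar) →
      IsKummer (N := N') p ((F x : FF Qbar N') : LaurentSeries Qbar)) :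
    KM D p →ₗ[ZMod p] KM D' p := (exists_mapKM D D' p F hF0 hF).choose

theorem mapKM_ofFun (F : FF Qbar N →* FF Qbar N') (hF0 : ∀ x, x ≠ 0 → F x ≠ 0)
    (hF : ∀ x : FF Qbar N, IsKummer (N := N) p (x : LaurentSeries Qbar) →
      IsKummer (N := N') p ((F x : FF Qbar N') : LaurentSeries Qbar)) (x : FF Qbar N)
    (hx : IsKummer (N := N) p (x : LaurentSeries Qbar)) :
    mapKM D D' p F hF0 hF (KM.ofFun D p x hx) = KM.ofFun D' p (F x : FF Qbar N') (hF x hx) :=
  (exists_mapKM D D' p F hF0 hF).choose_spec x hx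

/-- every class is the class of an element of the function field. -/
theorem exists_ofFun_FF (y : KM D p) : ∃ (x : FF Qbar N)
    (hx : IsKummer (N := N) p (x : LaurentSeries Qbar)), KM.ofFun D p x hx = y := by
  obtain ⟨u, hu, rfl⟩ := KM.ofFun_surjective D p y
  exact ⟨⟨u, hu.2.choose⟩, hu, rfl⟩

/-- if `F` commutes with the Galois action on coefficients then `mapKM` is Galois equivariant.
PROOF. `exists_ofFun_FF`, `galHom_ofFun`, `mapKM_ofFun` (with `x' := ⟨gal σ x, _⟩`, membership from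
`(galStable p σ x hx).2.choose`), `KM.val_injective` / `congrArg`. -/
theorem mapKM_galHom (F : FF Qbar N →* FF Qbar N') (hF0 : ∀ x, x ≠ 0 → F x ≠ 0)
    (hF : ∀ x : FF Qbar N, IsKummer (N := N) p (x : LaurentSeries Qbar) →
      IsKummer (N := N') p ((F x : FF Qbar N') : LaurentSeries Qbar))
    (hgal : ∀ (σ : GQ) (x x' : FF Qbar N), (x' : LaurentSeries Qbar) = gal σ (x : LaurentSeries Qbar) →
      ((F x' : FF Qbar N') : LaurentSeries Qbar) = gal σ ((F x : FF Qbar N') : LaurentSeries Qbar))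
    (σ : GQ) (y : KM D p) :
    mapKM D D' p F hF0 hF (galHom D p σ y) = galHom D' p σ (mapKM D D' p F hF0 hF y) := by
  obtain ⟨x, hx, rfl⟩ := exists_ofFun_FF D p y
  have hgx := galStable p σ (x : LaurentSeries Qbar) hx
  rw [galHom_ofFun, mapKM_ofFun, galHom_ofFun]
  have h1 := mapKM_ofFun D D' p F hF0 hF ⟨gal σ (x : LaurentSeries Qbar), hgx.2.choose⟩ hgx
  rw [h1]
  apply KM.val_injective D' p
  rw [KM.val_ofFun, KM.val_ofFun]
  congr 1
  exact hgal σ x ⟨gal σ (x : LaurentSeries Qbar), hgx.2.choose⟩ rfl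

end Fermat.Agent.LP.New
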