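import Fermat.Agent.LP.New.Defs
import Fermat.Agent.S33.ND.Emb

/-!
# LP-NEW : the norm identity `N_{F(pM0)/F(M0)}(x) = x · U_p (w x)`

This is `S33.ND.norm_eq` (`S33/ND/Emb.lean`): the algebra structure `algebraAlong (incl p M0)` used in
`nm` is the scoped instance `GS.Inst.algFF` used there.
-/

set_option autoImplicit false
set_option synthInstance.maxHeartbeats 400000

noncomputable section

namespace Fermat.Agent.LP.New

open Fermat.Agent.GR Fermat.Agent.GR.H ModularCurve AlgebraicCurve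

variable {p M0 : ℕ} {w : FF Qbar (p * M0) ≃ₐ[Qbar] FF Qbar (p * M0)}

open Fermat.Agent.GS.Inst in
theorem Norm_nm_eq (x : FF Qbar (p * M0)) : nm p M0 x = Algebra.norm (FF Qbar M0) x := rfl

theorem coe_nm [NeZero M0] [NeZero p] (hp : p.Prime) (hpM : ¬ p ∣ M0) (hw : GS.IsWQ Qbar p M0 w)
    (ζ : Qbarˣ) (hζ : IsPrimitiveRoot ζ p) (x : FF Qbar (p * M0)) :
    ((nm p M0 x : FF Qbar M0) : LaurentSeries Qbar) =
      (x : LaurentSeries Qbar) * normT p ζ ((w x : FF Qbar (p * M0)) : LaurentSeries Qbar) := by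
  rw [Norm_nm_eq]
  exact S33.ND.norm_eq hp hpM hw ζ hζ x

open Fermat.Agent.GS.Inst in
/-- the extension is finite (degree `p + 1`), so `Algebra.norm_ne_zero_iff` applies. -/
theorem nm_ne_zero [NeZero M0] (hp : p.Prime) (hpM : ¬ p ∣ M0) (x : FF Qbar (p * M0))
    (hx : x ≠ 0) : nm p M0 x ≠ 0 := by
  rw [Norm_nm_eq]
  have := S33.ND.finite_FF (p := p) (M0 := M0) hp hpM
  exact Algebra.norm_ne_zero_iff.mpr hx

end Fermat.Agent.LP.New
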