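import Fermat.Agent.LP.New.Defs
import Fermat.Agent.GR.S.FF.NormFormula
import Fermat.Agent.S33.ND.Deg

/-!
# LP-NEW : the norm of a Kummer function is a Kummer function

`GR.S.ord_norm_eq_sum` (`GR/S/FF/NormFormula.lean`): `v.ord (Algebra.norm F f) = ∑ w ∈ v.fiber F', w.ord f`.
-/

set_option autoImplicit false

noncomputable section

namespace Fermat.Agent.LP.New

open Fermat.Agent.GR Fermat.Agent.GR.H ModularCurve AlgebraicCurve Fermat.Agent.S17.FF

/-- `FF ℚ̄ N` is a function field. -/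
theorem isFF_FF (N : ℕ) [NeZero N] : IsFF Qbar (FF Qbar N) := S33.ND.isFF_FF N

theorem isKummer_nm {p M0 : ℕ} [NeZero M0] [NeZero (p * M0)] (n : ℕ) (x : FF Qbar (p * M0))
    (hx : IsKummer (N := p * M0) n (x : LaurentSeries Qbar)) :
    IsKummer (N := M0) n ((nm p M0 x : FF Qbar M0) : LaurentSeries Qbar) := by
  classical
  obtain ⟨h0, hmem, hord⟩ := hx
  have hx0 : x ≠ 0 := fun h => h0 (by rw [h]; rfl)
  have := isFF_FF M0
  have := isFF_FF (p * M0)
  letI := algebraAlong (incl p M0)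
  have := isScalarTower_along (incl p M0)
  have : Module.Finite (FF Qbar M0) (FF Qbar (p * M0)) := GR.S.finiteAlong (incl p M0)
  have : HasPrincipalDivisors Qbar (FF Qbar (p * M0)) := GR.S.hasPrincipalDivisors_of_isFF
  have hnm : nm p M0 x = Algebra.norm (FF Qbar M0) x := rfl
  have hN0 : Algebra.norm (FF Qbar M0) x ≠ 0 := Algebra.norm_ne_zero_iff.mpr hx0
  rw [hnm]
  refine ⟨fun h => hN0 (Subtype.ext h), (Algebra.norm (FF Qbar M0) x).2, fun v => ?_⟩
  show (n : ℤ) ∣ v.ord (Algebra.norm (FF Qbar M0) x)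
  rw [GR.S.ord_norm_eq_sum v x hx0]
  exact Finset.dvd_sum fun w _ => hord w

end Fermat.Agent.LP.New
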