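import Fermat.Agent.LP.New.MapKM
import Fermat.Agent.LP.New.Norm
import Fermat.Agent.LP.New.NormKummer
import Fermat.Agent.LP.Gal.KModGal

/-!
# LP-NEW : the operators `w` and `Nm` on Kummer classes
-/

set_option autoImplicit false
set_option linter.unusedSectionVars false

noncomputable section

namespace Fermat.Agent.LP.New

open Fermat.Agent.GR Fermat.Agent.GR.H Fermat.Agent.GR.I Fermat.Agent.LP.Gal ModularCurve

variable {p M0 : ℕ} [Fact p.Prime] [NeZero M0] [NeZero (p * M0)]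
  (D : KummerData (p * M0)) (D0 : KummerData M0)
  (w : FF Qbar (p * M0) ≃ₐ[Qbar] FF Qbar (p * M0))

/-- the action of an automorphism of the function field on `M_p(p M0)`. -/
def wEnd : Module.End (ZMod p) (KM D p) :=
  mapKM D D p (w : FF Qbar (p * M0) →* FF Qbar (p * M0)) (fun _ hx => (map_ne_zero w).2 hx)
    (fun x hx => GS.FW.isKummer_algEquiv w x hx)

theorem wEnd_ofFun (x : FF Qbar (p * M0))
    (hx : IsKummer (N := p * M0) p (x : LaurentSeries Qbar)) :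
    wEnd D w (KM.ofFun D p x hx) =
      KM.ofFun D p (w x : FF Qbar (p * M0)) (GS.FW.isKummer_algEquiv w x hx) :=
  mapKM_ofFun D D p _ _ _ x hx

variable {w}

theorem Ops_coprime (hpM : ¬ p ∣ M0) : p.Coprime M0 :=
  (Nat.Prime.coprime_iff_not_dvd (Fact.out : p.Prime)).2 hpM

theorem wEnd_wEnd (hpM : ¬ p ∣ M0) (hw : GS.IsWQ Qbar p M0 w) (y : KM D p) :
    wEnd D w (wEnd D w y) = y := by
  obtain ⟨ι⟩ := GS.nonempty_Qbar_hom
  obtain ⟨x, hx, rfl⟩ := exists_ofFun_FF D p y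
  rw [wEnd_ofFun, wEnd_ofFun]
  apply KM.val_injective D p
  rw [KM.val_ofFun, KM.val_ofFun, hw.invol ι (Ops_coprime hpM)]

theorem Ops_w_gal (hpM : ¬ p ∣ M0) (hw : GS.IsWQ Qbar p M0 w) (σ : GQ)
    (x x' : FF Qbar (p * M0)) (hx : (x' : LaurentSeries Qbar) = gal σ (x : LaurentSeries Qbar)) :
    ((w x' : FF Qbar (p * M0)) : LaurentSeries Qbar) =
      gal σ ((w x : FF Qbar (p * M0)) : LaurentSeries Qbar) := by
  have h : x' = E.mapFF (σ : Qbar →+* Qbar) (p * M0) x := Subtype.ext hx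
  rw [h]
  exact hw.gal_comm (Ops_coprime hpM) σ x

theorem wEnd_galHom (hpM : ¬ p ∣ M0) (hw : GS.IsWQ Qbar p M0 w) (σ : GQ) (y : KM D p) :
    wEnd D w (galHom D p σ y) = galHom D p σ (wEnd D w y) :=
  mapKM_galHom D D p _ _ _ (fun σ x x' hx => Ops_w_gal hpM hw σ x x' hx) σ y

/-- the norm commutes with the Galois action on the coefficients. -/
theorem nm_gal (hpM : ¬ p ∣ M0) (σ : GQ)
    (x x' : FF Qbar (p * M0)) (hx : (x' : LaurentSeries Qbar) = gal σ (x : LaurentSeries Qbar)) :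
    ((nm p M0 x' : FF Qbar M0) : LaurentSeries Qbar) =
      gal σ ((nm p M0 x : FF Qbar M0) : LaurentSeries Qbar) := by
  have hp : p.Prime := Fact.out
  have : NeZero p := ⟨hp.ne_zero⟩
  obtain ⟨ι⟩ := GS.nonempty_Qbar_hom
  have hw := GS.isWQ_wQ (K := Qbar) (Q := p) (N1 := M0) ι (Ops_coprime hpM)
  obtain ⟨ζ, hζ⟩ := KummerData.exists_primitiveRoot p
  rw [coe_nm hp hpM hw ζ hζ x, coe_nm hp hpM hw _ (KummerData.isPrimitiveRoot_map σ hζ) x', map_mul,
    hx, Ops_w_gal hpM hw σ x x' hx]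
  congr 1
  exact (coeffMap_normT (σ : Qbar →+* Qbar) p ζ _).symm

/-- the norm on Kummer classes. -/
def nmHom (hpM : ¬ p ∣ M0) : KM D p →ₗ[ZMod p] KM D0 p :=
  mapKM D D0 p (nm p M0) (fun x hx => nm_ne_zero (Fact.out : p.Prime) hpM x hx)
    (fun x hx => isKummer_nm p x hx)

theorem nmHom_ofFun (hpM : ¬ p ∣ M0) (x : FF Qbar (p * M0))
    (hx : IsKummer (N := p * M0) p (x : LaurentSeries Qbar)) :
    nmHom D D0 hpM (KM.ofFun D p x hx) =
      KM.ofFun D0 p (nm p M0 x : FF Qbar M0) (isKummer_nm p x hx) :=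
  mapKM_ofFun D D0 p _ _ _ x hx

theorem nmHom_galHom (hpM : ¬ p ∣ M0) (σ : GQ) (y : KM D p) :
    nmHom D D0 hpM (galHom D p σ y) = galHom D0 p σ (nmHom D D0 hpM y) :=
  mapKM_galHom D D0 p _ _ _ (fun σ x x' hx => nm_gal hpM σ x x' hx) σ y

end Fermat.Agent.LP.New
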