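import Fermat.Agent.LP.New.Main
import Fermat.Agent.LP.Iface
import Fermat.Agent.LP.Gal.Inst

/-!
# LP-NEW : the output `NewOut` of `LP/Iface.lean`
-/

set_option autoImplicit false

namespace Fermat.Agent.LP.New

open Fermat.Agent.GR Fermat.Agent.GR.H Fermat.Agent.GR.I Fermat.Agent.LP.Gal ModularCurve

/-- the class of an eigenfunction lies in the eigenspace. -/
theorem ofFun_mem_eig {N : ℕ} [NeZero N] (D : KummerData N) {p : ℕ} [Fact p.Prime] (S0 : Set ℕ)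
    (a : ℕ → ℤ) (y : LaurentSeries Qbar) (hy : IsKummer (N := N) p y) (heig : IsEig N p S0 a y) :
    KM.ofFun D p y hy ∈ eig D p S0ᶜ (fun ℓ => (a ℓ : ZMod p)) := by
  intro ℓ hℓ hℓN hL
  have : NeZero ℓ := ⟨hℓ.ne_zero⟩
  obtain ⟨ξ, hξ⟩ := KummerData.exists_primitiveRoot ℓ
  obtain ⟨e, he⟩ : ∃ e : ℕ, (e : ZMod p) = (a ℓ : ZMod p) :=
    ⟨((a ℓ : ZMod p)).val, ZMod.natCast_zmod_val _⟩
  rw [heckeEnd_T_ofFun D p hℓ hℓN ξ hξ]
  show _ = (a ℓ : ZMod p) • _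
  rw [← he, ← KM.ofFun_pow, KM.ofFun_eq_iff]
  exact heig ℓ ξ hℓ hL hξ e he

/-- **LP-NEW.** -/
theorem newOut : NewOut := by
  intro p _ M0 _ hp _ hpM S0 a hS0 hno w hw ζ hζ y hy heig
  have : Fact p.Prime := ⟨hp⟩
  have : NeZero (p * M0) := ⟨mul_ne_zero hp.ne_zero (NeZero.ne M0)⟩
  have hmem := ofFun_mem_eig (kummerData (p * M0)) (S0 : Set ℕ) a y hy heig
  have h0 := nmHom_eq_zero (kummerData (p * M0)) (kummerData M0) (cruxAll _) (cruxAll _) hpM _ _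
    (S0 : Set ℕ) hS0 (fun ℓ _ h => h) hno _ hmem
  have h1 := add_U_wEnd_eq_zero (kummerData (p * M0)) (kummerData M0) hpM hw _ h0
  rw [wEnd_ofFun, heckeEnd_U_ofFun (kummerData (p * M0)) p hp (Dvd.intro M0 rfl) ζ hζ,
    ← KM.ofFun_mul, KM.ofFun_eq_zero_iff] at h1
  exact h1

end Fermat.Agent.LP.New
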